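import Fermat.Agent.S41.LC.PotOps

/-!
# S41, block LC: `al ∘ res = tw`, `al ∘ al = 1`, `T_ℓ ∘ res = res ∘ T_ℓ`  (owner: helper188;
proofs: helper266)
-/

set_option autoImplicit false

open Matrix.SpecialLinearGroup CongruenceSubgroup ModularForm
open scoped MatrixGroups OnePoint

namespace Fermat.Agent.S41.LC

open Fermat.Agent.Lib.HeckeHom

variable {N q : ℕ}

/-- `w = ρ₀ δ` with `ρ₀ ∈ Γ₀(N)`. -/
theorem al_res (hq : q.Prime) (h : Nat.Coprime q N) (ψ : Additive (Gamma0 N) →+ ℤ) :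
    al N q hq h (res N q ψ) = tw N q ψ := by
  obtain ⟨F, hF⟩ := exists_isPot_int N ψ
  refine eq_of_isPot (isPot_al hq h (isPot_res hF)) (isPot_tw hF)
    (- ψ (Additive.ofMul (rho0 N q h))) fun x => ?_
  rw [wMat, mul_smul, hF]
  abel

/-- `γ₀ = w ^ 2 / q`. -/
def relAGamma (N q : ℕ) (h : Nat.Coprime q N) : Gamma0 (N * q) :=
  ⟨⟨!![(q : ℤ) * Int.gcdA q N ^ 2 - N * Int.gcdB q N, - Int.gcdB q N * (Int.gcdA q N + 1);
      (N : ℤ) * q * (Int.gcdA q N + 1), - (N : ℤ) * Int.gcdB q N + q], by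
    have hb := fam_bezout N q h
    rw [Matrix.det_fin_two_of]
    linear_combination ((q : ℤ) * Int.gcdA q N + (N : ℤ) * Int.gcdB q N + 1) * hb⟩, by
    rw [fam_mem_Gamma0]
    exact ⟨Int.gcdA q N + 1, by simp⟩⟩

theorem relA_wMat_sq (hq : q ≠ 0) (h : Nat.Coprime q N) :
    ((wMat N q h * wMat N q h : GL (Fin 2) ℝ) : Matrix (Fin 2) (Fin 2) ℝ) =
      (q : ℝ) • ((incl (N * q) (relAGamma N q h) : GL (Fin 2) ℝ) : Matrix (Fin 2) (Fin 2) ℝ) := by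
  rw [wMat, Units.val_mul, Units.val_mul, val_heckeDiagMatrix hq]
  ext i j
  fin_cases i <;> fin_cases j <;>
    simp [Matrix.mul_apply, Fin.sum_univ_two, incl_entry, rho0, rho0SL, relAGamma] <;> ring

/-- `w ^ 2 = q γ₀` with `γ₀ ∈ Γ₀(N q)`. -/
theorem al_al (hq : q.Prime) (h : Nat.Coprime q N) (ψ : Additive (Gamma0 (N * q)) →+ ℤ) :
    al N q hq h (al N q hq h ψ) = ψ := by
  obtain ⟨F, hF⟩ := exists_isPot_int (N * q) ψ
  refine eq_of_isPot (isPot_al hq h (isPot_al hq h hF)) hF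
    (- ψ (Additive.ofMul (relAGamma N q h))) fun x => ?_
  rw [← mul_smul, smul_eq_of_val_eq_smul (relA_wMat_sq hq.ne_zero h), hF]
  abel

theorem heckeHomT_res {ℓ : ℕ} (hℓ : ℓ.Prime) (hℓN : ¬ ℓ ∣ N) (hℓNq : ¬ ℓ ∣ N * q)
    (ψ : Additive (Gamma0 N) →+ ℤ) :
    heckeHomT hℓ hℓNq (res N q ψ) = res N q (heckeHomT hℓ hℓN ψ) := by
  obtain ⟨F, hF⟩ := exists_isPot_int N ψ
  exact eq_of_isPot (isPot_T hℓ hℓNq (isPot_res hF)) (isPot_res (isPot_T hℓ hℓN hF)) 0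
    fun x => (add_zero _).symm

end Fermat.Agent.S41.LC
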