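import Fermat.Agent.S41.LC.PotOps

/-!
# S41, block LC: `cores ∘ res = q + 1`, `cores ∘ tw = T_q`, `res ∘ cores = 1 + U_q ∘ al`
(statements: helper188, proofs: helper275)
-/

set_option autoImplicit false

open Matrix.SpecialLinearGroup CongruenceSubgroup ModularForm
open scoped MatrixGroups OnePoint

namespace Fermat.Agent.S41.LC

open Fermat.Agent.Lib.HeckeHom

variable {N q : ℕ}

/-- sums over `OnePoint`. -/
theorem relB_sum_onePoint {α M : Type*} [Fintype α] [AddCommMonoid M] (f : OnePoint α → M) :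
    ∑ i, f i = f ∞ + ∑ j : α, f (j : OnePoint α) :=
  Fintype.sum_option f

/-- the real matrix of `ρ₀ T^j`. -/
theorem relB_val_rho0_transl (h : Nat.Coprime q N) (t : ℤ) :
    (incl N (rho0 N q h * transl N t) : Matrix (Fin 2) (Fin 2) ℝ) =
      !![(Int.gcdA q N : ℝ), (Int.gcdA q N : ℝ) * t - (Int.gcdB q N : ℝ);
        (N : ℝ), (N : ℝ) * t + q] := by
  rw [map_mul, Units.val_mul, incl_transl_val]
  ext i j
  fin_cases i <;> fin_cases j <;>
    simp [Matrix.mul_apply, Fin.sum_univ_two, incl_entry, rho0, rho0SL] <;> ring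

/-- `g₁ = [[q x, y], [N, 1]]`. -/
def relB_g1 (N q : ℕ) (h : Nat.Coprime q N) : Gamma0 N :=
  ⟨⟨!![(q : ℤ) * Int.gcdA q N, - Int.gcdB q N; (N : ℤ), 1], by
    rw [Matrix.det_fin_two_of]
    have := fam_bezout N q h
    linarith⟩, by
    rw [Gamma0_mem]
    simp⟩

theorem relB_val_g1 (h : Nat.Coprime q N) :
    (incl N (relB_g1 N q h) : Matrix (Fin 2) (Fin 2) ℝ) =
      !![(q : ℝ) * (Int.gcdA q N : ℝ), - (Int.gcdB q N : ℝ); (N : ℝ), 1] := by
  ext i j
  rw [incl_entry]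
  fin_cases i <;> fin_cases j <;> simp [relB_g1]

/-- `δ ρ₀ T^j = g₁ [[1, j], [0, q]]`. -/
theorem relB_diag_mul (hq : q ≠ 0) (h : Nat.Coprime q N) (j : ℕ) :
    heckeDiagMatrix q * incl N (rho0 N q h * transl N (j : ℤ)) =
      incl N (relB_g1 N q h) * heckeMatrix q j := by
  apply Units.ext
  rw [Units.val_mul, Units.val_mul, relB_val_rho0_transl, relB_val_g1, val_heckeDiagMatrix hq,
    val_heckeMatrix hq]
  ext a b
  fin_cases a <;> fin_cases b <;> simp [Matrix.mul_apply, Fin.sum_univ_two] <;> ring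

/-- `w [[1, j], [0, q]] = q ρ₀ T^j`. -/
theorem relB_w_mul (hq : q ≠ 0) (h : Nat.Coprime q N) (j : ℕ) :
    ((wMat N q h * heckeMatrix q j : GL (Fin 2) ℝ) : Matrix (Fin 2) (Fin 2) ℝ) =
      (q : ℝ) • (incl N (rho0 N q h * transl N (j : ℤ)) : Matrix (Fin 2) (Fin 2) ℝ) := by
  have h0 := relB_val_rho0_transl (N := N) h 0
  rw [show rho0 N q h * transl N 0 = rho0 N q h from by
    have : transl N 0 = 1 := Subtype.ext (by simp [transl])
    rw [this, mul_one]] at h0
  rw [wMat, Units.val_mul, Units.val_mul, h0, relB_val_rho0_transl, val_heckeDiagMatrix hq,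
    val_heckeMatrix hq]
  ext a b
  fin_cases a <;> fin_cases b <;> simp [Matrix.mul_apply, Fin.sum_univ_two] <;> ring

theorem cores_res (hq : q.Prime) (h : Nat.Coprime q N) (ψ : Additive (Gamma0 N) →+ ℤ) :
    cores N q hq h (res N q ψ) = (q + 1) • ψ := by
  have : Fact q.Prime := ⟨hq⟩
  obtain ⟨F, hF⟩ := exists_isPot_int N ψ
  have h₁ := isPot_cores hq h (isPot_res (q := q) hF)
  have h₂ := hF.nsmul (q + 1)
  refine eq_of_isPot h₁ h₂
    (-∑ j : ZMod q, ψ (Additive.ofMul (rho0 N q h * transl N (j.val : ℤ)))) fun x => ?_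
  rw [relB_sum_onePoint, coresFam_infty, one_smul]
  simp only [coresFam_coe, hF _ x, Finset.sum_add_distrib, Finset.sum_const, Finset.card_univ,
    ZMod.card]
  rw [add_smul, one_smul]
  abel

/-- `δ = repT q ∞` and `δ ρ₀ T^j = g₁ [[1, j], [0, q]]` with `g₁ = [[q x, y], [N, 1]] ∈ Γ₀(N)`. -/
theorem cores_tw (hq : q.Prime) (h : Nat.Coprime q N) (hqN : ¬ q ∣ N)
    (ψ : Additive (Gamma0 N) →+ ℤ) :
    cores N q hq h (tw N q ψ) = heckeHomT hq hqN ψ := by
  have : Fact q.Prime := ⟨hq⟩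
  obtain ⟨F, hF⟩ := exists_isPot_int N ψ
  have h₁ := isPot_cores hq h (isPot_tw (q := q) hF)
  have h₂ := isPot_T hq hqN hF
  refine eq_of_isPot h₁ h₂ (-(q • ψ (Additive.ofMul (relB_g1 N q h)))) fun x => ?_
  rw [relB_sum_onePoint, relB_sum_onePoint, coresFam_infty, one_smul, repT_infty]
  have hterm : ∀ j : ZMod q, F (heckeDiagMatrix q • coresFam N q h (j : OnePoint (ZMod q)) • x) =
      F (repT q (j : OnePoint (ZMod q)) • x) + ψ (Additive.ofMul (relB_g1 N q h)) := by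
    intro j
    rw [coresFam_coe, ← mul_smul, relB_diag_mul hq.ne_zero h j.val, mul_smul, hF, repT_coe]
  simp only [hterm, Finset.sum_add_distrib, Finset.sum_const, Finset.card_univ, ZMod.card]
  abel

/-- `w [[1, j], [0, q]] = q ρ₀ T^j`. -/
theorem res_cores [NeZero (N * q)] (hq : q.Prime) (h : Nat.Coprime q N)
    (ψ : Additive (Gamma0 (N * q)) →+ ℤ) :
    res N q (cores N q hq h ψ) = ψ + heckeHomU (Dvd.intro_left N rfl) (al N q hq h ψ) := by
  have : Fact q.Prime := ⟨hq⟩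
  have : NeZero q := ⟨hq.ne_zero⟩
  obtain ⟨F, hF⟩ := exists_isPot_int (N * q) ψ
  have h₁ := isPot_res (q := q) (isPot_cores hq h hF)
  have h₂ := hF.add (isPot_U (r := q) (Dvd.intro_left N rfl) (isPot_al hq h hF))
  refine eq_of_isPot h₁ h₂ 0 fun x => ?_
  rw [add_zero, relB_sum_onePoint, coresFam_infty, one_smul]
  congr 1
  refine Finset.sum_congr rfl fun j _ => ?_
  rw [coresFam_coe, ← mul_smul, repU]
  exact congrArg F (smul_eq_of_val_eq_smul (relB_w_mul hq.ne_zero h j.val) x)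

end Fermat.Agent.S41.LC
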