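import Fermat.Agent.S41.LC.Dec

/-!
# S41, block LC: `T_ℓ ∘ al = al ∘ T_ℓ`  (owner: helper188; proofs: helper107)
-/

set_option autoImplicit false

open Matrix.SpecialLinearGroup CongruenceSubgroup ModularForm
open scoped MatrixGroups OnePoint

namespace Fermat.Agent.S41.LC

open Fermat.Agent.Lib.HeckeHom

variable {N q : ℕ}

/-- The Atkin-Lehner matrix, with integral entries. -/
def CommAl.W (N q : ℕ) : Matrix (Fin 2) (Fin 2) ℤ :=
  !![q * Int.gcdA q N, - Int.gcdB q N; N * q, q]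

theorem CommAl.map_mul (A B : Matrix (Fin 2) (Fin 2) ℤ) :
    (A * B).map (Int.cast : ℤ → ℝ) = A.map (Int.cast : ℤ → ℝ) * B.map (Int.cast : ℤ → ℝ) :=
  Matrix.map_mul (f := Int.castRingHom ℝ)

theorem CommAl.val_wMat (hq0 : q ≠ 0) (h : Nat.Coprime q N) :
    ((wMat N q h : GL (Fin 2) ℝ) : Matrix (Fin 2) (Fin 2) ℝ) =
      (CommAl.W N q).map (Int.cast : ℤ → ℝ) := by
  rw [wMat, Units.val_mul, val_heckeDiagMatrix hq0]
  ext i j
  fin_cases i <;> fin_cases j <;>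
    simp [Matrix.mul_apply, Fin.sum_univ_two, incl_apply, rho0, rho0SL, CommAl.W]
  all_goals ring

theorem CommAl.det_W (h : Nat.Coprime q N) : (CommAl.W N q).det = q := by
  have hb := fam_bezout N q h
  rw [CommAl.W, Matrix.det_fin_two_of]
  linear_combination (q : ℤ) * hb

/-- `w α w⁻¹` is integral of level `N q`, for `α` integral upper triangular of determinant `ℓ`. -/
theorem CommAl.forward (hq : q.Prime) (h : Nat.Coprime q N) {ℓ : ℕ} [Fact ℓ.Prime]
    (hℓ : ¬ ℓ ∣ N * q) (a b d : ℤ) (had : a * d = ℓ) (α : GL (Fin 2) ℝ)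
    (hα : (α : Matrix (Fin 2) (Fin 2) ℝ) =
      (!![a, b; 0, d] : Matrix (Fin 2) (Fin 2) ℤ).map (Int.cast : ℤ → ℝ)) :
    ∃ (k : OnePoint (ZMod ℓ)) (g : Gamma0 (N * q)),
      wMat N q h * α = incl (N * q) g * repT ℓ k * wMat N q h := by
  have hb := fam_bezout N q h
  have hq0 : (q : ℤ) ≠ 0 := by exact_mod_cast hq.ne_zero
  set x : ℤ := Int.gcdA q N with hx
  set y : ℤ := Int.gcdB q N with hy
  let M : Matrix (Fin 2) (Fin 2) ℤ :=
    !![q * x * a - N * (q * x * b - y * d), x * (q * x * b - y * d + y * a);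
       N * q * (a - N * b - d), x * (N * q * b + q * d) + N * y * a]
  have hMW : M * CommAl.W N q = CommAl.W N q * !![a, b; 0, d] := by
    ext i j
    fin_cases i <;> fin_cases j
    · simp [M, CommAl.W, Matrix.mul_apply, Fin.sum_univ_two, ← hx, ← hy]
      linear_combination (q * x * a) * hb
    · simp [M, CommAl.W, Matrix.mul_apply, Fin.sum_univ_two, ← hx, ← hy]
      linear_combination (q * x * b - y * d) * hb
    · simp [M, CommAl.W, Matrix.mul_apply, Fin.sum_univ_two, ← hx, ← hy]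
      linear_combination (N * q * a) * hb
    · simp [M, CommAl.W, Matrix.mul_apply, Fin.sum_univ_two, ← hx, ← hy]
      linear_combination (N * q * b + q * d) * hb
  have hdet : M.det = ℓ := by
    have h1 := congrArg Matrix.det hMW
    have hA : (!![a, b; 0, d] : Matrix (Fin 2) (Fin 2) ℤ).det = ℓ := by
      rw [Matrix.det_fin_two_of, mul_zero, sub_zero, had]
    rw [Matrix.det_mul, Matrix.det_mul, CommAl.det_W h, hA, mul_comm] at h1
    exact mul_left_cancel₀ hq0 h1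
  have hL : ((N * q : ℕ) : ℤ) ∣ M 1 0 := ⟨a - N * b - d, by simp [M]⟩
  obtain ⟨k, g, hkg⟩ := exists_eq_incl_mul_repT hℓ M hdet hL
  refine ⟨k, g, Units.ext ?_⟩
  rw [Units.val_mul, Units.val_mul, ← hkg, CommAl.val_wMat hq.ne_zero h, hα, ← CommAl.map_mul,
    ← CommAl.map_mul, hMW]

/-- `w⁻¹ α w` is integral of level `N q`, for `α` integral upper triangular of determinant `ℓ`. -/
theorem CommAl.backward (hq : q.Prime) (h : Nat.Coprime q N) {ℓ : ℕ} [Fact ℓ.Prime]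
    (hℓ : ¬ ℓ ∣ N * q) (a b d : ℤ) (had : a * d = ℓ) (α : GL (Fin 2) ℝ)
    (hα : (α : Matrix (Fin 2) (Fin 2) ℝ) =
      (!![a, b; 0, d] : Matrix (Fin 2) (Fin 2) ℤ).map (Int.cast : ℤ → ℝ)) :
    ∃ (k : OnePoint (ZMod ℓ)) (g : Gamma0 (N * q)),
      α * wMat N q h = incl (N * q) g * wMat N q h * repT ℓ k := by
  have hb := fam_bezout N q h
  have hq0 : (q : ℤ) ≠ 0 := by exact_mod_cast hq.ne_zero
  set x : ℤ := Int.gcdA q N with hx
  set y : ℤ := Int.gcdB q N with hy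
  let M : Matrix (Fin 2) (Fin 2) ℤ :=
    !![a * q * x + b * N * q + y * d * N, - a * y + b * q + y * d;
       N * q * (- a * x - b * N + x * d), N * (a * y - b * q) + x * d * q]
  have hWM : CommAl.W N q * M = !![a, b; 0, d] * CommAl.W N q := by
    ext i j
    fin_cases i <;> fin_cases j
    · simp [M, CommAl.W, Matrix.mul_apply, Fin.sum_univ_two, ← hx, ← hy]
      linear_combination (a * q * x + b * N * q) * hb
    · simp [M, CommAl.W, Matrix.mul_apply, Fin.sum_univ_two, ← hx, ← hy]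
      linear_combination (- a * y + b * q) * hb
    · simp [M, CommAl.W, Matrix.mul_apply, Fin.sum_univ_two, ← hx, ← hy]
      linear_combination (d * N * q) * hb
    · simp [M, CommAl.W, Matrix.mul_apply, Fin.sum_univ_two, ← hx, ← hy]
      linear_combination (d * q) * hb
  have hdet : M.det = ℓ := by
    have h1 := congrArg Matrix.det hWM
    have hA : (!![a, b; 0, d] : Matrix (Fin 2) (Fin 2) ℤ).det = ℓ := by
      rw [Matrix.det_fin_two_of, mul_zero, sub_zero, had]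
    rw [Matrix.det_mul, Matrix.det_mul, CommAl.det_W h, hA, mul_comm (ℓ : ℤ)] at h1
    exact mul_left_cancel₀ hq0 h1
  have hL : ((N * q : ℕ) : ℤ) ∣ M 1 0 := ⟨- a * x - b * N + x * d, by simp [M]⟩
  obtain ⟨k, g', hkg⟩ := exists_eq_incl_mul_repT hℓ M hdet hL
  obtain ⟨-, g, hg⟩ := (isCorr_al N q hq h).stable () g'
  refine ⟨k, g, ?_⟩
  rw [← hg, mul_assoc]
  refine Units.ext ?_
  rw [Units.val_mul, Units.val_mul, ← hkg, CommAl.val_wMat hq.ne_zero h, hα, ← CommAl.map_mul,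
    ← CommAl.map_mul, hWM]

theorem CommAl.val_repT_infty (ℓ : ℕ) (hℓ0 : ℓ ≠ 0) :
    ((repT ℓ ∞ : GL (Fin 2) ℝ) : Matrix (Fin 2) (Fin 2) ℝ) =
      (!![(ℓ : ℤ), 0; 0, 1] : Matrix (Fin 2) (Fin 2) ℤ).map (Int.cast : ℤ → ℝ) := by
  rw [repT_infty, val_heckeDiagMatrix hℓ0]
  ext i j
  fin_cases i <;> fin_cases j <;> simp

theorem CommAl.val_repT_coe (ℓ : ℕ) (hℓ0 : ℓ ≠ 0) (j : ZMod ℓ) :
    ((repT ℓ (j : OnePoint (ZMod ℓ)) : GL (Fin 2) ℝ) : Matrix (Fin 2) (Fin 2) ℝ) =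
      (!![1, (j.val : ℤ); 0, (ℓ : ℤ)] : Matrix (Fin 2) (Fin 2) ℤ).map (Int.cast : ℤ → ℝ) := by
  rw [repT_coe, val_heckeMatrix hℓ0]
  ext i j
  fin_cases i <;> fin_cases j <;> simp

/-- every `α_k` is integral upper triangular of determinant `ℓ`. -/
theorem CommAl.exists_val_repT (ℓ : ℕ) (hℓ0 : ℓ ≠ 0) (k : OnePoint (ZMod ℓ)) :
    ∃ a b d : ℤ, a * d = ℓ ∧ ((repT ℓ k : GL (Fin 2) ℝ) : Matrix (Fin 2) (Fin 2) ℝ) =
      (!![a, b; 0, d] : Matrix (Fin 2) (Fin 2) ℤ).map (Int.cast : ℤ → ℝ) := by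
  induction k using OnePoint.rec with
  | infty => exact ⟨ℓ, 0, 1, mul_one _, CommAl.val_repT_infty ℓ hℓ0⟩
  | coe j => exact ⟨1, j.val, ℓ, one_mul _, CommAl.val_repT_coe ℓ hℓ0 j⟩

theorem heckeHomT_al (hq : q.Prime) (h : Nat.Coprime q N) {ℓ : ℕ} (hℓ : ℓ.Prime)
    (hℓNq : ¬ ℓ ∣ N * q) (ψ : Additive (Gamma0 (N * q)) →+ ℤ) :
    heckeHomT hℓ hℓNq (al N q hq h ψ) = al N q hq h (heckeHomT hℓ hℓNq ψ) := by
  have : Fact ℓ.Prime := ⟨hℓ⟩
  obtain ⟨F, hF⟩ := exists_isPot_int (N * q) ψ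
  have h₁ : IsPot (incl (N * q)) (heckeHomT hℓ hℓNq (al N q hq h ψ))
      (fun x => ∑ k, F (wMat N q h • repT ℓ k • x)) := isPot_T hℓ hℓNq (isPot_al hq h hF)
  have h₂ : IsPot (incl (N * q)) (al N q hq h (heckeHomT hℓ hℓNq ψ))
      (fun x => ∑ k, F (repT ℓ k • wMat N q h • x)) := isPot_al hq h (isPot_T hℓ hℓNq hF)
  have claim : ∀ k : OnePoint (ZMod ℓ), ∃ (k' : OnePoint (ZMod ℓ)) (g : Gamma0 (N * q)),
      wMat N q h * repT ℓ k = incl (N * q) g * repT ℓ k' * wMat N q h := by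
    intro k
    obtain ⟨a, b, d, had, hα⟩ := CommAl.exists_val_repT ℓ hℓ.ne_zero k
    exact CommAl.forward hq h hℓNq a b d had _ hα
  choose σ g hσ using claim
  have hsurj : Function.Surjective σ := by
    intro k'
    obtain ⟨a, b, d, had, hα⟩ := CommAl.exists_val_repT ℓ hℓ.ne_zero k'
    obtain ⟨k, g', hk⟩ := CommAl.backward hq h hℓNq a b d had _ hα
    refine ⟨k, ((isHeckeFamily_T hℓNq).disj k' (σ k) (g' * g k) ?_).symm⟩
    apply mul_right_cancel (b := wMat N q h)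
    rw [hk, mul_assoc, hσ k, map_mul]
    simp only [mul_assoc]
  have hbij : Function.Bijective σ := ⟨Finite.injective_iff_surjective.2 hsurj, hsurj⟩
  refine eq_of_isPot h₁ h₂ (-(∑ k, ψ (Additive.ofMul (g k)))) (fun x => ?_)
  have key : ∀ k, F (wMat N q h • repT ℓ k • x) =
      F (repT ℓ (σ k) • wMat N q h • x) + ψ (Additive.ofMul (g k)) := by
    intro k
    rw [← mul_smul, hσ k, mul_smul, mul_smul, hF]
  simp only [key, Finset.sum_add_distrib]
  have hre : ∑ k, F (repT ℓ (σ k) • wMat N q h • x) = ∑ k, F (repT ℓ k • wMat N q h • x) :=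
    Equiv.sum_comp (Equiv.ofBijective σ hbij) (fun k => F (repT ℓ k • wMat N q h • x))
  rw [hre]
  ring

end Fermat.Agent.S41.LC
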