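import Fermat.Agent.S41.LC.PotOps

/-!
# S41, block LC: `T_ℓ ∘ cores = cores ∘ T_ℓ`  (owner: helper188; proof: helper186)

Both sides have a potential which is a double sum of values of one potential `F` of `ψ`, and the
two families of cosets `Γ₀(Nq) r_i α_k` and `Γ₀(Nq) α_k r_i` coincide.
-/

set_option autoImplicit false

open Matrix.SpecialLinearGroup CongruenceSubgroup ModularForm
open scoped MatrixGroups OnePoint

namespace Fermat.Agent.S41.LC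

open Fermat.Agent.Lib.HeckeHom

/-- Abstract commutation of a Hecke family (for two groups) with a corestriction family. -/
theorem commCores_abstract {Γ₁ Γ₂ G ι κ X A : Type*} [Group Γ₁] [Group Γ₂] [Group G]
    [MulAction G X] [AddCommGroup A] [Fintype ι] [Fintype κ]
    {φ₁ : Γ₁ →* G} {φ₂ : Γ₂ →* G} {α : κ → G} {r : ι → G}
    (hT₁ : IsHeckeFamily φ₁ α) (hT₂ : IsHeckeFamily φ₂ α) (hC : IsCorr φ₁ φ₂ r)
    (ρ : ι → Γ₁) (hρ : ∀ i, r i = φ₁ (ρ i)) (i₀ : ι) (hi₀ : r i₀ = 1)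
    (key : ∀ (k k' : κ) (γ : Γ₁) (g : Γ₂), α k * φ₁ γ = φ₂ g * α k' → ∃ γ' : Γ₂, φ₁ γ = φ₂ γ')
    {ψ : Additive Γ₂ →+ A} {F : X → A} (hF : IsPot φ₂ ψ F) :
    ∃ c : A, ∀ x, ∑ i, ∑ k, F (α k • r i • x) = ∑ k, ∑ i, F (r i • α k • x) + c := by
  classical
  let Φ : ι × κ → ι × κ := fun p => (hC.perm (hT₁.coc (ρ p.1) p.2) i₀, hT₁.perm (ρ p.1) p.2)
  let g : ι × κ → Γ₂ := fun p => hC.coc (hT₁.coc (ρ p.1) p.2) i₀
  have hΦ : ∀ p, α p.2 * r p.1 = φ₂ (g p) * (r (Φ p).1 * α (Φ p).2) := by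
    intro p
    rw [hρ p.1, hT₁.spec, ← mul_assoc, ← hC.spec, hi₀, one_mul]
  have hinj : Function.Injective Φ := by
    intro p p' hpp
    have e1 := hΦ p
    have e2 := hΦ p'
    rw [hpp] at e1
    have e3 : α p.2 * r p.1 = φ₂ (g p * (g p')⁻¹) * (α p'.2 * r p'.1) := by
      rw [e2, e1, map_mul, map_inv]
      group
    have e4 : α p.2 * φ₁ (ρ p.1 * (ρ p'.1)⁻¹) = φ₂ (g p * (g p')⁻¹) * α p'.2 := by
      rw [map_mul, map_inv, ← hρ, ← hρ, ← mul_assoc, e3]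
      group
    obtain ⟨γ', hγ'⟩ := key _ _ _ _ e4
    have h1 : p.1 = p'.1 := hC.disj _ _ γ' (by
      rw [← hγ', map_mul, map_inv, ← hρ, ← hρ]
      group)
    have h2 : p.2 = p'.2 := hT₂.disj _ _ (g p * (g p')⁻¹) (by
      rw [h1] at e3
      exact mul_right_cancel (e3.trans (mul_assoc _ _ _).symm))
    exact Prod.ext h1 h2
  have hbij : Function.Bijective Φ := Finite.injective_iff_bijective.1 hinj
  refine ⟨∑ p, ψ (Additive.ofMul (g p)), fun x => ?_⟩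
  rw [Finset.sum_comm (f := fun k i => F (r i • α k • x)),
    ← Fintype.sum_prod_type' (f := fun i k => F (α k • r i • x)),
    ← Fintype.sum_prod_type' (f := fun i k => F (r i • α k • x)),
    ← Equiv.sum_comp (Equiv.ofBijective Φ hbij) (fun p : ι × κ => F (r p.1 • α p.2 • x)),
    ← Finset.sum_add_distrib]
  refine Finset.sum_congr rfl fun p _ => ?_
  rw [Equiv.ofBijective_apply, ← mul_smul, hΦ p, mul_smul, hF, mul_smul]

/-- The representatives of `T_ℓ` are upper triangular integral matrices of determinant `ℓ`. -/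
theorem repT_val_eq {ℓ : ℕ} (hℓ : ℓ ≠ 0) (k : OnePoint (ZMod ℓ)) :
    ∃ a b d : ℤ, a * d = ℓ ∧
      ((repT ℓ k : GL (Fin 2) ℝ) : Matrix (Fin 2) (Fin 2) ℝ) = !![(a : ℝ), (b : ℝ); 0, (d : ℝ)] := by
  induction k using OnePoint.rec with
  | infty =>
    refine ⟨ℓ, 0, 1, by ring, ?_⟩
    rw [repT_infty, val_heckeDiagMatrix hℓ]
    simp
  | coe j =>
    refine ⟨1, j.val, ℓ, by ring, ?_⟩
    rw [repT_coe, val_heckeMatrix hℓ]
    simp

variable {N q : ℕ}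

theorem commCores_key (hq : q.Prime) (h : Nat.Coprime q N) {ℓ : ℕ} (hℓ : ℓ.Prime)
    (hℓNq : ¬ ℓ ∣ N * q) (k k' : OnePoint (ZMod ℓ)) (γ : Gamma0 N) (g : Gamma0 (N * q))
    (e : repT ℓ k * incl N γ = incl (N * q) g * repT ℓ k') :
    ∃ γ' : Gamma0 (N * q), incl N γ = incl (N * q) γ' := by
  obtain ⟨a, b, d, had, hk⟩ := repT_val_eq hℓ.ne_zero k
  obtain ⟨a', b', d', had', hk'⟩ := repT_val_eq hℓ.ne_zero k'
  have e10 := congrArg (fun M : GL (Fin 2) ℝ => (M : Matrix (Fin 2) (Fin 2) ℝ) 1 0) e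
  simp only [Units.val_mul, hk, hk', Matrix.mul_apply, Fin.sum_univ_two] at e10
  have hγe : ∀ i j, ((incl N γ : GL (Fin 2) ℝ) : Matrix (Fin 2) (Fin 2) ℝ) i j =
      (((γ : SL(2, ℤ)) i j : ℤ) : ℝ) := fun i j => incl_entry N γ i j
  have hge : ∀ i j, ((incl (N * q) g : GL (Fin 2) ℝ) : Matrix (Fin 2) (Fin 2) ℝ) i j =
      (((g : SL(2, ℤ)) i j : ℤ) : ℝ) := fun i j => incl_entry (N * q) g i j
  simp only [hγe, hge] at e10
  simp at e10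
  have e10' : d * (γ : SL(2, ℤ)) 1 0 = (g : SL(2, ℤ)) 1 0 * a' := by exact_mod_cast e10
  have hgq : ((N * q : ℕ) : ℤ) ∣ (g : SL(2, ℤ)) 1 0 := fam_mem_Gamma0.1 g.2
  have hγN : (N : ℤ) ∣ (γ : SL(2, ℤ)) 1 0 := fam_mem_Gamma0.1 γ.2
  have hq1 : (q : ℤ) ∣ (ℓ : ℤ) * (γ : SL(2, ℤ)) 1 0 := by
    have : (q : ℤ) ∣ (g : SL(2, ℤ)) 1 0 := Dvd.dvd.trans ⟨N, by push_cast; ring⟩ hgq
    rw [← had, mul_assoc, e10']
    exact Dvd.dvd.mul_left (Dvd.dvd.mul_right this _) _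
  have hq2 : (q : ℤ) ∣ (γ : SL(2, ℤ)) 1 0 := by
    rcases (Nat.prime_iff_prime_int.1 hq).dvd_or_dvd hq1 with h1 | h1
    · exfalso
      have h2 : q ∣ ℓ := Int.natCast_dvd_natCast.1 h1
      have h3 : q = ℓ := (Nat.prime_dvd_prime_iff_eq hq hℓ).1 h2
      exact hℓNq (h3 ▸ Dvd.intro_left N rfl)
    · exact h1
  have hcop : IsCoprime (N : ℤ) (q : ℤ) := Nat.isCoprime_iff_coprime.2 h.symm
  have hNq : ((N * q : ℕ) : ℤ) ∣ (γ : SL(2, ℤ)) 1 0 := by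
    push_cast
    exact hcop.mul_dvd hγN hq2
  exact ⟨⟨γ, fam_mem_Gamma0.2 hNq⟩, rfl⟩

theorem heckeHomT_cores (hq : q.Prime) (h : Nat.Coprime q N) {ℓ : ℕ} (hℓ : ℓ.Prime)
    (hℓN : ¬ ℓ ∣ N) (hℓNq : ¬ ℓ ∣ N * q) (ψ : Additive (Gamma0 (N * q)) →+ ℤ) :
    heckeHomT hℓ hℓN (cores N q hq h ψ) = cores N q hq h (heckeHomT hℓ hℓNq ψ) := by
  have : Fact q.Prime := ⟨hq⟩
  have : Fact ℓ.Prime := ⟨hℓ⟩
  obtain ⟨F, hF⟩ := exists_isPot_int _ ψ
  have h₁ := isPot_T hℓ hℓN (isPot_cores hq h hF)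
  have h₂ := isPot_cores hq h (isPot_T hℓ hℓNq hF)
  obtain ⟨c, hc⟩ := commCores_abstract (isHeckeFamily_T hℓN) (isHeckeFamily_T hℓNq)
    (isCorr_cores N q hq h) (fun i => ⟨fam_rep N q h i, fam_rep_mem N q h i⟩)
    (fun i => fam_coresFam_eq N q h i) ∞ (coresFam_infty N q h)
    (commCores_key hq h hℓ hℓNq) hF
  exact eq_of_isPot h₁ h₂ c hc

end Fermat.Agent.S41.LC
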