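import Fermat.Agent.S41.LC.PotOps

/-!
# S41, block LC: `T_ℓ ∘ tw = tw ∘ T_ℓ`  (owner: helper188; proof: helper207)
-/

set_option autoImplicit false

open Matrix.SpecialLinearGroup CongruenceSubgroup ModularForm
open scoped MatrixGroups OnePoint

namespace Fermat.Agent.S41.LC

open Fermat.Agent.Lib.HeckeHom

variable {N q : ℕ}

/-- `x ↦ a x` on `ℙ¹(𝔽_ℓ)`, for a unit `a` with inverse `b`. -/
def CommTw.mulPt (ℓ : ℕ) (a b : ZMod ℓ) (hab : a * b = 1) : Equiv.Perm (OnePoint (ZMod ℓ)) where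
  toFun x := x.elim ∞ (fun j => ((a * j : ZMod ℓ) : OnePoint (ZMod ℓ)))
  invFun x := x.elim ∞ (fun j => ((b * j : ZMod ℓ) : OnePoint (ZMod ℓ)))
  left_inv x := by
    induction x using OnePoint.rec with
    | infty => rfl
    | coe j =>
      show (((b * (a * j) : ZMod ℓ)) : OnePoint (ZMod ℓ)) = _
      rw [← mul_assoc, mul_comm b a, hab, one_mul]
  right_inv x := by
    induction x using OnePoint.rec with
    | infty => rfl
    | coe j =>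
      show (((a * (b * j) : ZMod ℓ)) : OnePoint (ZMod ℓ)) = _
      rw [← mul_assoc, hab, one_mul]

theorem CommTw.mulPt_infty (ℓ : ℕ) (a b : ZMod ℓ) (hab : a * b = 1) :
    CommTw.mulPt ℓ a b hab ∞ = ∞ := rfl

theorem CommTw.mulPt_coe (ℓ : ℕ) (a b : ZMod ℓ) (hab : a * b = 1) (j : ZMod ℓ) :
    CommTw.mulPt ℓ a b hab (j : OnePoint (ZMod ℓ)) = ((a * j : ZMod ℓ) : OnePoint (ZMod ℓ)) := rfl

theorem CommTw.diag_mul_diag {ℓ : ℕ} (hℓ0 : ℓ ≠ 0) (hq0 : q ≠ 0) :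
    heckeDiagMatrix q * heckeDiagMatrix ℓ = heckeDiagMatrix ℓ * heckeDiagMatrix q := by
  apply Units.ext
  rw [Units.val_mul, Units.val_mul, val_heckeDiagMatrix hq0, val_heckeDiagMatrix hℓ0]
  ext i j
  fin_cases i <;> fin_cases j <;> simp [Matrix.mul_apply, Fin.sum_univ_two, mul_comm]

theorem CommTw.diag_mul_heckeMatrix {ℓ : ℕ} (hℓ0 : ℓ ≠ 0) (hq0 : q ≠ 0) (a b : ℕ) (m : ℤ)
    (h : (q : ℤ) * (a : ℤ) = (b : ℤ) + m * (ℓ : ℤ)) :
    heckeDiagMatrix q * heckeMatrix ℓ a =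
      incl N (transl N m) * heckeMatrix ℓ b * heckeDiagMatrix q := by
  apply Units.ext
  rw [Units.val_mul, Units.val_mul, Units.val_mul, incl_transl_val, val_heckeDiagMatrix hq0,
    val_heckeMatrix hℓ0, val_heckeMatrix hℓ0]
  have h' : (q : ℝ) * (a : ℝ) = (b : ℝ) + (m : ℝ) * (ℓ : ℝ) := by exact_mod_cast h
  ext i j
  fin_cases i <;> fin_cases j <;> simp [Matrix.mul_apply, Fin.sum_univ_two]
  exact h'

/-- `δ [[1, j], [0, ℓ]] = T^m [[1, j'], [0, ℓ]] δ` with `q j = j' + m ℓ`, and `δ` commutes with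
`diag(ℓ, 1)`. -/
theorem heckeHomT_tw {ℓ : ℕ} (hℓ : ℓ.Prime) (hℓN : ¬ ℓ ∣ N) (hℓNq : ¬ ℓ ∣ N * q)
    (ψ : Additive (Gamma0 N) →+ ℤ) :
    heckeHomT hℓ hℓNq (tw N q ψ) = tw N q (heckeHomT hℓ hℓN ψ) := by
  have : Fact ℓ.Prime := ⟨hℓ⟩
  have : NeZero ℓ := ⟨hℓ.ne_zero⟩
  have hq0 : q ≠ 0 := by
    rintro rfl
    exact hℓNq (by simp)
  have hℓq : ¬ ℓ ∣ q := fun h => hℓNq (h.mul_left N)
  have hqℓ : (q : ZMod ℓ) ≠ 0 := by
    rw [Ne, ZMod.natCast_eq_zero_iff]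
    exact hℓq
  have hab : (q : ZMod ℓ) * (q : ZMod ℓ)⁻¹ = 1 := mul_inv_cancel₀ hqℓ
  set σ := CommTw.mulPt ℓ (q : ZMod ℓ) (q : ZMod ℓ)⁻¹ hab with hσ
  have hex : ∀ k : OnePoint (ZMod ℓ), ∃ u : Gamma0 N,
      heckeDiagMatrix q * repT ℓ k = incl N u * repT ℓ (σ k) * heckeDiagMatrix q := by
    intro k
    induction k using OnePoint.rec with
    | infty =>
      refine ⟨1, ?_⟩
      rw [hσ, CommTw.mulPt_infty, repT_infty, map_one, one_mul]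
      exact CommTw.diag_mul_diag hℓ.ne_zero hq0
    | coe j =>
      obtain ⟨m, hm⟩ : (ℓ : ℤ) ∣ (q : ℤ) * (j.val : ℤ) - ((((q : ZMod ℓ) * j).val : ℕ) : ℤ) := by
        rw [← ZMod.intCast_zmod_eq_zero_iff_dvd]
        push_cast
        simp
      refine ⟨transl N m, ?_⟩
      rw [hσ, CommTw.mulPt_coe, repT_coe, repT_coe]
      exact CommTw.diag_mul_heckeMatrix hℓ.ne_zero hq0 _ _ m (by linarith)
  choose u hu using hex
  obtain ⟨F, hF⟩ := exists_isPot_int N ψ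
  have h₁ := isPot_T hℓ hℓNq (isPot_tw (q := q) hF)
  have h₂ := isPot_tw (q := q) (isPot_T hℓ hℓN hF)
  refine eq_of_isPot h₁ h₂ (- ∑ k, ψ (Additive.ofMul (u k))) fun x => ?_
  rw [← Equiv.sum_comp σ (fun k => F (repT ℓ k • heckeDiagMatrix q • x)), eq_add_neg_iff_add_eq,
    ← Finset.sum_add_distrib]
  refine Finset.sum_congr rfl fun k _ => ?_
  rw [← hF (u k), ← mul_smul, ← mul_smul, ← mul_smul, hu k]

end Fermat.Agent.S41.LC
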