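import Fermat.Agent.S41.LC.PotOps

/-!
# S41, block LC: integral matrices of determinant `ℓ` and level `L`
-/

set_option autoImplicit false

open Matrix.SpecialLinearGroup CongruenceSubgroup ModularForm
open scoped MatrixGroups OnePoint

namespace Fermat.Agent.S41.LC

open Fermat.Agent.Lib.HeckeHom

/-- the element `[[a, s], [c, t]]` of `Γ₀(L)` -/
noncomputable def Dec.mk (L : ℕ) (a s c t : ℤ) (hdet : a * t - s * c = 1) (hL : (L : ℤ) ∣ c) :
    Gamma0 L :=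
  ⟨⟨!![a, s; c, t], by rw [Matrix.det_fin_two_of]; exact hdet⟩, by
    rw [Gamma0_mem]
    exact (ZMod.intCast_zmod_eq_zero_iff_dvd _ _).mpr hL⟩

theorem Dec.incl_mk_val (L : ℕ) (a s c t : ℤ) (hdet : a * t - s * c = 1) (hL : (L : ℤ) ∣ c) :
    (incl L (Dec.mk L a s c t hdet hL) : Matrix (Fin 2) (Fin 2) ℝ) =
      !![(a : ℝ), (s : ℝ); (c : ℝ), (t : ℝ)] := by
  ext i j
  rw [incl_entry]
  fin_cases i <;> fin_cases j <;> rfl

/-- Every integral matrix of determinant `ℓ` with lower left entry divisible by `L` lies in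
`Γ₀(L) α_k` for some `k ∈ P¹(𝔽_ℓ)`. -/
theorem exists_eq_incl_mul_repT {L ℓ : ℕ} [Fact ℓ.Prime] (hℓL : ¬ ℓ ∣ L)
    (M : Matrix (Fin 2) (Fin 2) ℤ) (hdet : M.det = ℓ) (hL : (L : ℤ) ∣ M 1 0) :
    ∃ (k : OnePoint (ZMod ℓ)) (g : Gamma0 L),
      M.map (Int.cast : ℤ → ℝ) = ((incl L g * repT ℓ k : GL (Fin 2) ℝ) : Matrix (Fin 2) (Fin 2) ℝ) := by
  have hℓ : ℓ.Prime := Fact.out
  have hℓ0 : ℓ ≠ 0 := hℓ.ne_zero
  have hℓZ : Prime (ℓ : ℤ) := Nat.prime_iff_prime_int.mp hℓ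
  have hℓZ0 : (ℓ : ℤ) ≠ 0 := hℓZ.ne_zero
  obtain ⟨a, b, c, d, rfl⟩ : ∃ a b c d : ℤ, M = !![a, b; c, d] :=
    ⟨M 0 0, M 0 1, M 1 0, M 1 1, (Matrix.etaExpand_eq M).symm⟩
  rw [Matrix.det_fin_two_of] at hdet
  replace hL : (L : ℤ) ∣ c := hL
  by_cases hcase : (ℓ : ℤ) ∣ a ∧ (ℓ : ℤ) ∣ c
  · -- `k = ∞`
    obtain ⟨⟨a', rfl⟩, ⟨c', rfl⟩⟩ := hcase
    have hdet' : a' * d - b * c' = 1 := by
      apply mul_left_cancel₀ hℓZ0
      linear_combination hdet
    have hcop : IsCoprime (L : ℤ) (ℓ : ℤ) := by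
      rw [Nat.isCoprime_iff_coprime]
      exact ((Nat.Prime.coprime_iff_not_dvd hℓ).mpr hℓL).symm
    have hL' : (L : ℤ) ∣ c' := hcop.dvd_of_dvd_mul_left hL
    refine ⟨∞, Dec.mk L a' b c' d hdet' hL', ?_⟩
    rw [Units.val_mul, Dec.incl_mk_val, repT_infty, val_heckeDiagMatrix hℓ0]
    ext i j
    fin_cases i <;> fin_cases j <;> simp [Matrix.mul_apply, Fin.sum_univ_two] <;> ring
  · -- `k = j`
    have hcop : IsCoprime a c := by
      rw [Int.isCoprime_iff_gcd_eq_one]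
      have hga : ((Int.gcd a c : ℕ) : ℤ) ∣ a := Int.gcd_dvd_left a c
      have hgc : ((Int.gcd a c : ℕ) : ℤ) ∣ c := Int.gcd_dvd_right a c
      have hg : ((Int.gcd a c : ℕ) : ℤ) ∣ (ℓ : ℤ) := by
        rw [← hdet]
        exact dvd_sub (Dvd.dvd.mul_right hga d) (Dvd.dvd.mul_left hgc b)
      have hg' : Int.gcd a c ∣ ℓ := Int.natCast_dvd_natCast.mp hg
      rcases (Nat.dvd_prime hℓ).mp hg' with h1 | h1
      · exact h1
      · exact absurd ⟨h1 ▸ hga, h1 ▸ hgc⟩ hcase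
    obtain ⟨u, v, huv⟩ := hcop
    set j₀ : ℤ := u * b + v * d with hj₀
    set m : ℤ := j₀ / ℓ with hm
    have hval : (((j₀ : ZMod ℓ).val : ℕ) : ℤ) = j₀ - ℓ * m := by
      rw [ZMod.val_intCast, hm, Int.emod_def]
    have hdet' : a * (u + c * m) - (a * m - v) * c = 1 := by
      linear_combination huv
    refine ⟨((j₀ : ZMod ℓ) : OnePoint (ZMod ℓ)), Dec.mk L a (a * m - v) c (u + c * m) hdet' hL, ?_⟩
    have hvalR : (((j₀ : ZMod ℓ).val : ℕ) : ℝ) = (j₀ : ℝ) - ℓ * m := by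
      exact_mod_cast hval
    have hdetR : (a : ℝ) * d - b * c = ℓ := by exact_mod_cast hdet
    have huvR : (u : ℝ) * a + v * c = 1 := by exact_mod_cast huv
    have hj₀R : (j₀ : ℝ) = u * b + v * d := by rw [hj₀]; push_cast; ring
    rw [Units.val_mul, Dec.incl_mk_val, repT_coe, val_heckeMatrix hℓ0]
    ext i j
    fin_cases i <;> fin_cases j <;>
      simp only [Matrix.mul_apply, Fin.sum_univ_two, Matrix.map_apply, Matrix.of_apply,
        Matrix.cons_val', Matrix.cons_val_zero, Matrix.cons_val_one, Matrix.cons_val_fin_one,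
        Fin.zero_eta, Fin.mk_one, Fin.isValue, hvalR, hj₀R, Int.cast_add, Int.cast_sub,
        Int.cast_mul]
    · ring
    · linear_combination (-(v : ℝ)) * hdetR - (b : ℝ) * huvR
    · ring
    · linear_combination (u : ℝ) * hdetR - (d : ℝ) * huvR

end Fermat.Agent.S41.LC
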