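import Fermat.Agent.S41.Defs

/-!
# S41, block LC: `res`, `tw`, `al`, `cores` preserve the parabolic lattices

All four operators are `corrHom`s of correspondences inside `GL₂(ℝ)`.  If `γ` is parabolic
(`tr² = 4`) then so are all its powers, and so is every `g` conjugate (in `GL₂(ℝ)`) to a power of
`γ`.  A suitable power `γ ^ n` (`n > 0`) fixes all the indices of the correspondence, whence
`n • corrHom ψ γ = corrHom ψ (γ ^ n) = ∑ i, ψ (gᵢ) = 0` with `gᵢ` conjugate to `γ ^ n`; as `ℤ` is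
torsion free we get `corrHom ψ γ = 0`.
-/

set_option autoImplicit false

open Matrix.SpecialLinearGroup CongruenceSubgroup ModularForm
open scoped MatrixGroups OnePoint

namespace Fermat.Agent.S41.LC

open Fermat.Agent.Lib.HeckeHom

/-- The permutation attached to `γ ^ m` is the `m`-th power of the one attached to `γ`. -/
theorem stable_perm_pow {Γ₁ Γ₂ G ι : Type*} [Group Γ₁] [Group Γ₂] [Group G]
    {φ₁ : Γ₁ →* G} {φ₂ : Γ₂ →* G} {α : ι → G} (h : IsCorr φ₁ φ₂ α) (γ : Γ₁) (m : ℕ) (i : ι) :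
    h.perm (γ ^ m) i = (h.permEquiv γ ^ m) i := by
  induction m generalizing i with
  | zero => rw [pow_zero, pow_zero, h.perm_one, Equiv.Perm.one_apply]
  | succ m ih =>
    rw [pow_succ, h.perm_mul, ih, pow_succ', Equiv.Perm.mul_apply, h.permEquiv_apply]

/-- Abstract form of the torsion-free trick: if `ψ` kills all `g` with
`α i * φ₁ (γ ^ n) = φ₂ g * α i`, then `corrHom ψ` kills `γ`. -/
theorem corrHom_apply_eq_zero {Γ₁ Γ₂ G ι : Type*} [Group Γ₁] [Group Γ₂] [Group G] [Fintype ι]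
    {φ₁ : Γ₁ →* G} {φ₂ : Γ₂ →* G} {α : ι → G} (h : IsCorr φ₁ φ₂ α) (ψ : Additive Γ₂ →+ ℤ) (γ : Γ₁)
    (hψ : ∀ (n : ℕ) (i : ι) (g : Γ₂), α i * φ₁ (γ ^ n) = φ₂ g * α i → ψ (Additive.ofMul g) = 0) :
    h.corrHom ψ (Additive.ofMul γ) = 0 := by
  classical
  have hn : 0 < orderOf (h.permEquiv γ) := orderOf_pos _
  have hfix : ∀ i, h.perm (γ ^ orderOf (h.permEquiv γ)) i = i := fun i => by
    rw [stable_perm_pow, pow_orderOf_eq_one, Equiv.Perm.one_apply]
  have h0 : h.corrHom ψ (Additive.ofMul (γ ^ orderOf (h.permEquiv γ))) = 0 := by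
    rw [h.corrHom_apply]
    refine Finset.sum_eq_zero fun i _ => hψ (orderOf (h.permEquiv γ)) i _ ?_
    have e := h.spec (γ ^ orderOf (h.permEquiv γ)) i
    rwa [hfix i] at e
  rw [ofMul_pow, map_nsmul, smul_eq_zero] at h0
  exact h0.resolve_left hn.ne'

/-- Cayley-Hamilton for `2 × 2` matrices of determinant one. -/
theorem stable_mul_self (M : Matrix (Fin 2) (Fin 2) ℤ) (hd : M.det = 1) :
    M * M = M.trace • M - 1 := by
  rw [Matrix.det_fin_two] at hd
  ext i j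
  rw [Matrix.sub_apply, Matrix.smul_apply, Matrix.mul_apply, Fin.sum_univ_two,
    Matrix.trace_fin_two, smul_eq_mul]
  fin_cases i <;> fin_cases j
  · simp only [Fin.zero_eta, Matrix.one_apply_eq]
    linear_combination (-1 : ℤ) * hd
  · simp only [Fin.zero_eta, Fin.mk_one, ne_eq, zero_ne_one, not_false_eq_true,
      Matrix.one_apply_ne]
    ring
  · simp only [Fin.zero_eta, Fin.mk_one, ne_eq, one_ne_zero, not_false_eq_true,
      Matrix.one_apply_ne]
    ring
  · simp only [Fin.mk_one, Matrix.one_apply_eq]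
    linear_combination (-1 : ℤ) * hd

theorem stable_trace_pow_aux (M : Matrix (Fin 2) (Fin 2) ℤ) (hd : M.det = 1)
    (ht : M.trace ^ 2 = 4) (n : ℕ) :
    (M ^ n).trace ^ 2 = 4 ∧ 2 * (M ^ (n + 1)).trace = M.trace * (M ^ n).trace := by
  induction n with
  | zero =>
    refine ⟨?_, ?_⟩
    · simp
    · simp [Matrix.trace_fin_two]
      ring
  | succ n ih =>
    obtain ⟨h1, h2⟩ := ih
    have hrec : (M ^ (n + 1 + 1)).trace = M.trace * (M ^ (n + 1)).trace - (M ^ n).trace := by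
      rw [pow_succ, pow_succ, mul_assoc, stable_mul_self M hd, mul_sub, mul_one,
        Matrix.mul_smul, Matrix.trace_sub, Matrix.trace_smul, smul_eq_mul, ← pow_succ]
    have h3 : M.trace * (M ^ (n + 1)).trace = 2 * (M ^ n).trace := by
      have : 2 * (M.trace * (M ^ (n + 1)).trace) = 2 * (2 * (M ^ n).trace) := by
        linear_combination M.trace * h2 + (M ^ n).trace * ht
      exact mul_left_cancel₀ two_ne_zero this
    refine ⟨?_, ?_⟩
    · have : 4 * (M ^ (n + 1)).trace ^ 2 = 4 * 4 := by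
        linear_combination (2 * (M ^ (n + 1)).trace + M.trace * (M ^ n).trace) * h2 +
          (M ^ n).trace ^ 2 * ht + 4 * h1
      exact mul_left_cancel₀ four_ne_zero this
    · rw [hrec]
      linear_combination h3

/-- Powers of parabolic elements are parabolic. -/
theorem stable_trace_pow (g : SL(2, ℤ)) (ht : (g : Matrix (Fin 2) (Fin 2) ℤ).trace ^ 2 = 4)
    (n : ℕ) : ((g ^ n : SL(2, ℤ)) : Matrix (Fin 2) (Fin 2) ℤ).trace ^ 2 = 4 := by
  rw [Matrix.SpecialLinearGroup.coe_pow]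
  exact (stable_trace_pow_aux _ g.det_coe ht n).1

theorem stable_trace_mapGL (g : SL(2, ℤ)) :
    ((mapGL ℝ g : GL (Fin 2) ℝ) : Matrix (Fin 2) (Fin 2) ℝ).trace =
      (((g : Matrix (Fin 2) (Fin 2) ℤ).trace : ℤ) : ℝ) := by
  simp [Matrix.trace_fin_two]

/-- Elements of `SL₂(ℤ)` which are conjugate in `GL₂(ℝ)` have the same trace. -/
theorem stable_trace_eq {a : GL (Fin 2) ℝ} {g g' : SL(2, ℤ)}
    (e : a * mapGL ℝ g = mapGL ℝ g' * a) :
    (g' : Matrix (Fin 2) (Fin 2) ℤ).trace = (g : Matrix (Fin 2) (Fin 2) ℤ).trace := by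
  have e' : (mapGL ℝ g' : GL (Fin 2) ℝ) = a * mapGL ℝ g * a⁻¹ := by
    rw [e, mul_inv_cancel_right]
  have h1 := stable_trace_mapGL g'
  rw [e', Units.val_mul, Units.val_mul, Matrix.trace_units_conj, stable_trace_mapGL] at h1
  exact_mod_cast h1.symm

/-- The common argument: a `corrHom` between `Γ₀`-groups preserves the parabolic lattices. -/
theorem stable_corrHom_mem_Lam {M₁ M₂ : ℕ} {ι : Type*} [Fintype ι] {α : ι → GL (Fin 2) ℝ}
    (h : IsCorr (incl M₁) (incl M₂) α) {ψ : Additive (Gamma0 M₂) →+ ℤ} (hψ : ψ ∈ Lam M₂) :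
    h.corrHom ψ ∈ Lam M₁ := by
  intro γ hγ
  refine corrHom_apply_eq_zero h ψ γ fun n i g e => hψ g ?_
  rw [incl_apply, incl_apply] at e
  rw [stable_trace_eq e, Subgroup.coe_pow]
  exact stable_trace_pow _ hγ n

variable {N q : ℕ}

theorem res_mem_Lam {ψ : Additive (Gamma0 N) →+ ℤ} (hψ : ψ ∈ Lam N) :
    res N q ψ ∈ Lam (N * q) :=
  stable_corrHom_mem_Lam (isCorr_res N q) hψ

theorem tw_mem_Lam {ψ : Additive (Gamma0 N) →+ ℤ} (hψ : ψ ∈ Lam N) :
    tw N q ψ ∈ Lam (N * q) :=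
  stable_corrHom_mem_Lam (isCorr_tw N q) hψ

theorem al_mem_Lam (hq : q.Prime) (h : Nat.Coprime q N) {ψ : Additive (Gamma0 (N * q)) →+ ℤ}
    (hψ : ψ ∈ Lam (N * q)) : al N q hq h ψ ∈ Lam (N * q) :=
  stable_corrHom_mem_Lam (isCorr_al N q hq h) hψ

theorem cores_mem_Lam (hq : q.Prime) (h : Nat.Coprime q N) {ψ : Additive (Gamma0 (N * q)) →+ ℤ}
    (hψ : ψ ∈ Lam (N * q)) : cores N q hq h ψ ∈ Lam N := by
  have : Fact q.Prime := ⟨hq⟩
  exact stable_corrHom_mem_Lam (isCorr_cores N q hq h) hψ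

end Fermat.Agent.S41.LC
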