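import Fermat.Agent.S41.LC.RelA
import Fermat.Agent.S41.LC.RelB
import Fermat.Agent.S41.LC.CommTw
import Fermat.Agent.S41.LC.CommAl
import Fermat.Agent.S41.LC.CommCores
import Fermat.Agent.S41.LC.Stable

/-!
# S41, block LC: the level changing operators on the lattices `Lam N`  (owner: helper188)

`resL, twL : Lam N → Lam (N q)`, `coresL : Lam (N q) → Lam N`, `alL`, `TL`, `UL` as `ℤ`-linear maps
and all the relations between them.
-/

set_option autoImplicit false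

open Matrix.SpecialLinearGroup CongruenceSubgroup ModularForm
open scoped MatrixGroups OnePoint

namespace Fermat.Agent.S41.LC

open Fermat.Agent.Lib.HeckeHom

/-- Restriction of an additive map between the `Hom`-groups to the parabolic lattices. -/
noncomputable def latMap {M M' : ℕ}
    (f : (Additive (Gamma0 M) →+ ℤ) →+ (Additive (Gamma0 M') →+ ℤ))
    (hf : ∀ ψ, ψ ∈ Lam M → f ψ ∈ Lam M') : Lam M →ₗ[ℤ] Lam M' :=
  (f.toIntLinearMap.comp (Lam M).subtype).codRestrict (Lam M') (fun x => hf x.1 x.2)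

@[simp] theorem coe_latMap {M M' : ℕ}
    (f : (Additive (Gamma0 M) →+ ℤ) →+ (Additive (Gamma0 M') →+ ℤ))
    (hf : ∀ ψ, ψ ∈ Lam M → f ψ ∈ Lam M') (x : Lam M) :
    (latMap f hf x : Additive (Gamma0 M') →+ ℤ) = f x.1 := rfl

variable (N q : ℕ)

noncomputable def resL : Lam N →ₗ[ℤ] Lam (N * q) := latMap (res N q) (fun _ => res_mem_Lam)

noncomputable def twL : Lam N →ₗ[ℤ] Lam (N * q) := latMap (tw N q) (fun _ => tw_mem_Lam)

noncomputable def alL (hq : q.Prime) (h : Nat.Coprime q N) : Lam (N * q) →ₗ[ℤ] Lam (N * q) :=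
  latMap (al N q hq h) (fun _ => al_mem_Lam hq h)

noncomputable def coresL (hq : q.Prime) (h : Nat.Coprime q N) : Lam (N * q) →ₗ[ℤ] Lam N :=
  latMap (cores N q hq h) (fun _ => cores_mem_Lam hq h)

variable {N q}

noncomputable def TL [NeZero N] {ℓ : ℕ} (hℓ : ℓ.Prime) (hℓN : ¬ ℓ ∣ N) : Lam N →ₗ[ℤ] Lam N :=
  latMap (heckeHomT hℓ hℓN) (fun _ => heckeHomT_mem_parabolicHoms_int N hℓ hℓN)

noncomputable def UL [NeZero N] {r : ℕ} (hrN : r ∣ N) : Lam N →ₗ[ℤ] Lam N :=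
  latMap (heckeHomU hrN) (fun _ => heckeHomU_mem_parabolicHoms_int N hrN)

theorem latHom_T [NeZero N] (S : Set ℕ) {ℓ : ℕ} (hℓ : ℓ.Prime) (hℓN : ¬ ℓ ∣ N) (hℓS : ℓ ∉ S) :
    latHom N S (CuspForm.heckeAlgebra.T hℓ hℓN hℓS) = TL hℓ hℓN :=
  LinearMap.ext fun x => Subtype.ext (coe_latHom_T N S hℓ hℓN hℓS x)

theorem latHom_U [NeZero N] (S : Set ℕ) {r : ℕ} (hr : r.Prime) (hrN : r ∣ N) (hrS : r ∉ S) :
    latHom N S (CuspForm.heckeAlgebra.U hr hrN hrS) = UL hrN :=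
  LinearMap.ext fun x => Subtype.ext (coe_latHom_U N S hr hrN hrS x)

section relations

variable (hq : q.Prime) (h : Nat.Coprime q N)

theorem alL_resL (x : Lam N) : alL N q hq h (resL N q x) = twL N q x :=
  Subtype.ext (al_res hq h x.1)

theorem alL_alL (y : Lam (N * q)) : alL N q hq h (alL N q hq h y) = y :=
  Subtype.ext (al_al hq h y.1)

theorem alL_twL (x : Lam N) : alL N q hq h (twL N q x) = resL N q x := by
  rw [← alL_resL hq h, alL_alL]

theorem coresL_resL (x : Lam N) : coresL N q hq h (resL N q x) = (q + 1) • x :=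
  Subtype.ext (cores_res hq h x.1)

theorem coresL_twL [NeZero N] (hqN : ¬ q ∣ N) (x : Lam N) :
    coresL N q hq h (twL N q x) = TL hq hqN x :=
  Subtype.ext (cores_tw hq h hqN x.1)

theorem resL_coresL [NeZero (N * q)] (y : Lam (N * q)) :
    resL N q (coresL N q hq h y) = y + UL (Dvd.intro_left N rfl) (alL N q hq h y) :=
  Subtype.ext (res_cores hq h y.1)

variable {ℓ : ℕ} (hℓ : ℓ.Prime) (hℓN : ¬ ℓ ∣ N) (hℓNq : ¬ ℓ ∣ N * q)

theorem TL_resL [NeZero N] [NeZero (N * q)] (x : Lam N) :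
    TL hℓ hℓNq (resL N q x) = resL N q (TL hℓ hℓN x) :=
  Subtype.ext (heckeHomT_res hℓ hℓN hℓNq x.1)

theorem TL_twL [NeZero N] [NeZero (N * q)] (x : Lam N) :
    TL hℓ hℓNq (twL N q x) = twL N q (TL hℓ hℓN x) :=
  Subtype.ext (heckeHomT_tw hℓ hℓN hℓNq x.1)

theorem TL_alL [NeZero (N * q)] (y : Lam (N * q)) :
    TL hℓ hℓNq (alL N q hq h y) = alL N q hq h (TL hℓ hℓNq y) :=
  Subtype.ext (heckeHomT_al hq h hℓ hℓNq y.1)

theorem TL_coresL [NeZero N] [NeZero (N * q)] (y : Lam (N * q)) :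
    TL hℓ hℓN (coresL N q hq h y) = coresL N q hq h (TL hℓ hℓNq y) :=
  Subtype.ext (heckeHomT_cores hq h hℓ hℓN hℓNq y.1)

end relations

/-! ### The maps `α` and `β` -/

section alphabeta

variable (N q) (hq : q.Prime) (h : Nat.Coprime q N)

/-- `α (x₁, x₂) = res x₁ + tw x₂`. -/
noncomputable def alphaL : (Lam N × Lam N) →ₗ[ℤ] Lam (N * q) :=
  (resL N q).coprod (twL N q)

/-- `β y = (cores y, cores (al y))`. -/
noncomputable def betaL : Lam (N * q) →ₗ[ℤ] (Lam N × Lam N) :=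
  (coresL N q hq h).prod ((coresL N q hq h).comp (alL N q hq h))

variable {N q}

theorem alphaL_apply (x : Lam N × Lam N) : alphaL N q x = resL N q x.1 + twL N q x.2 := rfl

theorem betaL_apply (y : Lam (N * q)) :
    betaL N q hq h y = (coresL N q hq h y, coresL N q hq h (alL N q hq h y)) := rfl

theorem betaL_alphaL [NeZero N] (hqN : ¬ q ∣ N) (x : Lam N × Lam N) :
    betaL N q hq h (alphaL N q x) =
      ((q + 1) • x.1 + TL hq hqN x.2, TL hq hqN x.1 + (q + 1) • x.2) := by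
  rw [betaL_apply, alphaL_apply, map_add, map_add, map_add, coresL_resL, coresL_twL hq h hqN,
    alL_resL, alL_twL, coresL_resL, coresL_twL hq h hqN]

/-- **`U_q ^ 2 = 1` on `ker β`.** -/
theorem UL_UL_of_betaL_eq_zero [NeZero (N * q)] {y : Lam (N * q)} (hy : betaL N q hq h y = 0) :
    UL (Dvd.intro_left N rfl) (UL (Dvd.intro_left N rfl) y) = y := by
  rw [betaL_apply, Prod.mk_eq_zero] at hy
  obtain ⟨h1, h2⟩ := hy
  have e1 := resL_coresL hq h y
  rw [h1, map_zero] at e1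
  have e2 := resL_coresL hq h (alL N q hq h y)
  rw [h2, map_zero, alL_alL] at e2
  -- `U y = - al y`, `U (al y) = - y`
  have e3 : UL (Dvd.intro_left N rfl) y = - alL N q hq h y := by
    rw [eq_neg_iff_add_eq_zero, add_comm]; exact e2.symm
  have e4 : UL (Dvd.intro_left N rfl) (alL N q hq h y) = - y := by
    rw [eq_neg_iff_add_eq_zero, add_comm]; exact e1.symm
  rw [e3, map_neg, e4, neg_neg]

variable {ℓ : ℕ} (hℓ : ℓ.Prime) (hℓN : ¬ ℓ ∣ N) (hℓNq : ¬ ℓ ∣ N * q)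

theorem TL_alphaL [NeZero N] [NeZero (N * q)] (x : Lam N × Lam N) :
    TL hℓ hℓNq (alphaL N q x) = alphaL N q (TL hℓ hℓN x.1, TL hℓ hℓN x.2) := by
  rw [alphaL_apply, alphaL_apply, map_add, TL_resL hℓ hℓN hℓNq, TL_twL hℓ hℓN hℓNq]

theorem betaL_TL [NeZero N] [NeZero (N * q)] (y : Lam (N * q)) :
    betaL N q hq h (TL hℓ hℓNq y) =
      (TL hℓ hℓN (betaL N q hq h y).1, TL hℓ hℓN (betaL N q hq h y).2) := by
  rw [betaL_apply, betaL_apply, TL_coresL hq h hℓ hℓN hℓNq, TL_coresL hq h hℓ hℓN hℓNq,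
    TL_alL hq h hℓ hℓNq]

end alphabeta

end Fermat.Agent.S41.LC
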