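import Fermat.Agent.S41.LC.Pot
import Fermat.Agent.S41.Defs

/-!
# S41, block LC: the `GL₂(ℝ)`-set `PGL₂(ℝ)` and integral potentials  (owner: helper188)

On `PX = GL₂(ℝ) / centre` the scalar matrices act trivially, and the stabilisers in `Γ₀(N)` are
contained in `{±1}`; hence every `ℤ`-valued homomorphism of `Γ₀(N)` has a potential on `PX`.
(Proofs: helper205.)
-/

set_option autoImplicit false

open Matrix.SpecialLinearGroup CongruenceSubgroup ModularForm
open scoped MatrixGroups OnePoint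

namespace Fermat.Agent.S41.LC

open Fermat.Agent.Lib.HeckeHom

/-- `PGL₂(ℝ)` as a `GL₂(ℝ)`-set. -/
abbrev PX : Type := GL (Fin 2) ℝ ⧸ Subgroup.center (GL (Fin 2) ℝ)

instance : Nonempty PX := ⟨((1 : GL (Fin 2) ℝ) : PX)⟩

/-- An invertible matrix which is scalar is central. -/
theorem PX.mem_center_of_val_eq_smul_one {w : GL (Fin 2) ℝ} {c : ℝ}
    (h : (w : Matrix (Fin 2) (Fin 2) ℝ) = c • (1 : Matrix (Fin 2) (Fin 2) ℝ)) :
    w ∈ Subgroup.center (GL (Fin 2) ℝ) := by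
  rw [Subgroup.mem_center_iff]
  intro g
  apply Units.ext
  rw [Units.val_mul, Units.val_mul, h, Matrix.mul_smul, Matrix.smul_mul, Matrix.mul_one,
    Matrix.one_mul]

/-- A central element acts trivially on `PX`. -/
theorem PX.smul_eq_of_mem_center {z : GL (Fin 2) ℝ} (hz : z ∈ Subgroup.center (GL (Fin 2) ℝ))
    (x : PX) : z • x = x := by
  induction x using QuotientGroup.induction_on with
  | H g =>
    show ((z * g : GL (Fin 2) ℝ) : PX) = (g : PX)
    rw [QuotientGroup.eq]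
    have e : (z * g)⁻¹ * g = z⁻¹ := by
      rw [← (Subgroup.mem_center_iff.1 hz g)]
      group
    rw [e]
    exact inv_mem hz

/-- Proportional matrices act in the same way on `PX`. -/
theorem smul_eq_of_val_eq_smul {a b : GL (Fin 2) ℝ} {c : ℝ}
    (h : (a : Matrix (Fin 2) (Fin 2) ℝ) = c • (b : Matrix (Fin 2) (Fin 2) ℝ)) (x : PX) :
    a • x = b • x := by
  have hw : b⁻¹ * a ∈ Subgroup.center (GL (Fin 2) ℝ) := by
    apply PX.mem_center_of_val_eq_smul_one (c := c)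
    rw [Units.val_mul, h, Matrix.mul_smul, ← Units.val_mul, inv_mul_cancel, Units.val_one]
  have e : a = b * (b⁻¹ * a) := by group
  rw [e, mul_smul, PX.smul_eq_of_mem_center hw]

/-- The stabiliser of a point of `PX` is the centre. -/
theorem PX.mem_center_of_smul_eq {a : GL (Fin 2) ℝ} {x : PX} (h : a • x = x) :
    a ∈ Subgroup.center (GL (Fin 2) ℝ) := by
  induction x using QuotientGroup.induction_on with
  | H g =>
    have h1 : ((a * g : GL (Fin 2) ℝ) : PX) = (g : PX) := h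
    rw [QuotientGroup.eq] at h1
    have h2 := (Subgroup.mem_center_iff.1 h1 g)
    have e : a⁻¹ = (a * g)⁻¹ * g := by
      have : g * ((a * g)⁻¹ * g) = a⁻¹ * g := by group
      rw [this] at h2
      exact mul_right_cancel h2
    have h3 : a⁻¹ ∈ Subgroup.center (GL (Fin 2) ℝ) := by rw [e]; exact h1
    simpa using inv_mem h3

/-- A central element of `Γ₀(N)` has square `1`. -/
theorem PX.mul_self_eq_one_of_mem_center {N : ℕ} {γ : Gamma0 N}
    (h : incl N γ ∈ Subgroup.center (GL (Fin 2) ℝ)) : γ * γ = 1 := by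
  rw [Subgroup.mem_center_iff] at h
  let E₁ : GL (Fin 2) ℝ := Matrix.GeneralLinearGroup.mkOfDetNeZero !![1, 1; 0, 1] (by simp)
  let E₂ : GL (Fin 2) ℝ := Matrix.GeneralLinearGroup.mkOfDetNeZero !![1, 0; 1, 1] (by simp)
  have hE₁ : (E₁ : Matrix (Fin 2) (Fin 2) ℝ) = !![1, 1; 0, 1] := rfl
  have hE₂ : (E₂ : Matrix (Fin 2) (Fin 2) ℝ) = !![1, 0; 1, 1] := rfl
  have h1 := congrArg (fun M : GL (Fin 2) ℝ => (M : Matrix (Fin 2) (Fin 2) ℝ)) (h E₁)
  have h2 := congrArg (fun M : GL (Fin 2) ℝ => (M : Matrix (Fin 2) (Fin 2) ℝ)) (h E₂)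
  simp only [Units.val_mul, hE₁, hE₂] at h1 h2
  have h100 := congrFun (congrFun h1 0) 0
  have h101 := congrFun (congrFun h1 0) 1
  have h200 := congrFun (congrFun h2 0) 0
  have eI : ∀ i j, (incl N γ : Matrix (Fin 2) (Fin 2) ℝ) i j = (((γ : SL(2, ℤ)) i j : ℤ) : ℝ) :=
    fun i j => incl_entry N γ i j
  simp only [Matrix.mul_apply, Fin.sum_univ_two, eI] at h100 h101 h200
  simp at h100 h101 h200
  have hdet : (γ : SL(2, ℤ)) 0 0 * (γ : SL(2, ℤ)) 1 1 - (γ : SL(2, ℤ)) 0 1 * (γ : SL(2, ℤ)) 1 0 = 1 := by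
    have := (γ : SL(2, ℤ)).det_coe
    rwa [Matrix.det_fin_two] at this
  have h11 : (γ : SL(2, ℤ)) 1 1 = (γ : SL(2, ℤ)) 0 0 := by
    have : (((γ : SL(2, ℤ)) 1 1 : ℤ) : ℝ) = (((γ : SL(2, ℤ)) 0 0 : ℤ) : ℝ) := by linarith
    exact_mod_cast this
  rw [h100, h200, h11] at hdet
  apply Subtype.ext
  apply Matrix.SpecialLinearGroup.ext
  intro i j
  show ((γ : SL(2, ℤ)) * (γ : SL(2, ℤ))) i j = (1 : SL(2, ℤ)) i j
  rw [Matrix.SpecialLinearGroup.coe_mul, Matrix.mul_apply, Fin.sum_univ_two,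
    Matrix.SpecialLinearGroup.coe_one]
  fin_cases i <;> fin_cases j <;> simp [h100, h200, h11] <;> linarith

/-- Every `ℤ`-valued homomorphism of `Γ₀(N)` has a potential on `PX`. -/
theorem exists_isPot_int (N : ℕ) (ψ : Additive (Gamma0 N) →+ ℤ) :
    ∃ F : PX → ℤ, IsPot (incl N) ψ F := by
  refine exists_isPot (incl N) ψ fun γ x hx => ?_
  have h1 := PX.mul_self_eq_one_of_mem_center (PX.mem_center_of_smul_eq hx)
  have h2 : ψ (Additive.ofMul (γ * γ)) = 0 := by rw [h1]; exact map_zero ψ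
  rw [ofMul_mul, map_add] at h2
  omega

end Fermat.Agent.S41.LC
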