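import Fermat.Agent.S41.Corr
import Fermat.Agent.Lib.HeckeHom.Abstract

/-!
# S41, block LC: the calculus of potentials  (owner: helper188)

Let `φ : Γ →* G` and let `G` act on a set `X`.  A *potential* of `ψ : Hom(Γ, A)` is a function
`F : X → A` with `F (φ γ • x) = F x + ψ γ`.  A homomorphism is determined by any of its potentials,
and if `F` is a potential of `ψ` for `Γ₂` then `x ↦ ∑ i, F (α i • x)` is a potential of
`corrHom ψ` for `Γ₁`.  Hence every identity between composites of correspondences reduces to an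
identity (up to an additive constant) between sums of values of one function `F`, i.e. to a
bijection between two families of cosets.
-/

set_option autoImplicit false

namespace Fermat.Agent.S41.LC

open Fermat.Agent.Lib.HeckeHom (IsHeckeFamily)

variable {Γ Γ₁ Γ₂ G ι X A : Type*} [Group Γ] [Group Γ₁] [Group Γ₂] [Group G] [MulAction G X]
  [AddCommGroup A]

/-- `F` is a potential of `ψ`. -/
def IsPot (φ : Γ →* G) (ψ : Additive Γ →+ A) (F : X → A) : Prop :=
  ∀ (γ : Γ) (x : X), F (φ γ • x) = F x + ψ (Additive.ofMul γ)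

namespace IsPot

variable {φ : Γ →* G} {ψ ψ' : Additive Γ →+ A} {F F' : X → A}

/-- Two homomorphisms having potentials which differ by a constant are equal. -/
theorem eq_of_add_const [Nonempty X] (h : IsPot φ ψ F) (h' : IsPot φ ψ' F') (c : A)
    (hc : ∀ x, F' x = F x + c) : ψ = ψ' := by
  obtain ⟨x⟩ := ‹Nonempty X›
  refine AddMonoidHom.ext fun γ => ?_
  obtain ⟨γ, rfl⟩ := Additive.ofMul.surjective γ
  have h1 := h γ x
  have h2 := h' γ x
  rw [hc, hc, h1] at h2
  have h3 : F x + ψ (Additive.ofMul γ) + c = F x + c + ψ (Additive.ofMul γ) := by abel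
  rw [h3] at h2
  exact add_left_cancel h2

theorem unique [Nonempty X] (h : IsPot φ ψ F) (h' : IsPot φ ψ' F) : ψ = ψ' :=
  h.eq_of_add_const h' 0 (fun x => (add_zero _).symm)

theorem add (h : IsPot φ ψ F) (h' : IsPot φ ψ' F') : IsPot φ (ψ + ψ') (fun x => F x + F' x) := by
  intro γ x
  simp only [AddMonoidHom.add_apply]
  rw [h γ x, h' γ x]
  abel

theorem neg (h : IsPot φ ψ F) : IsPot φ (-ψ) (fun x => - F x) := by
  intro γ x
  simp only [AddMonoidHom.neg_apply]
  rw [h γ x]
  abel

theorem sub (h : IsPot φ ψ F) (h' : IsPot φ ψ' F') : IsPot φ (ψ - ψ') (fun x => F x - F' x) := by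
  intro γ x
  simp only [AddMonoidHom.sub_apply]
  rw [h γ x, h' γ x]
  abel

theorem nsmul (h : IsPot φ ψ F) (n : ℕ) : IsPot φ (n • ψ) (fun x => n • F x) := by
  intro γ x
  simp only [AddMonoidHom.coe_smul, Pi.smul_apply]
  rw [h γ x, smul_add]

theorem zsmul (h : IsPot φ ψ F) (n : ℤ) : IsPot φ (n • ψ) (fun x => n • F x) := by
  intro γ x
  simp only [AddMonoidHom.coe_smul, Pi.smul_apply]
  rw [h γ x, smul_add]

theorem add_const (h : IsPot φ ψ F) (c : A) : IsPot φ ψ (fun x => F x + c) := by
  intro γ x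
  simp only
  rw [h γ x]
  abel

/-- Change of the coefficient group. -/
theorem comp {B : Type*} [AddCommGroup B] (h : IsPot φ ψ F) (g : A →+ B) :
    IsPot φ (g.comp ψ) (fun x => g (F x)) := by
  intro γ x
  simp only [AddMonoidHom.comp_apply]
  rw [h γ x, map_add]

/-- Restriction of the group. -/
theorem comp_hom {Γ' : Type*} [Group Γ'] (h : IsPot φ ψ F) (θ : Γ' →* Γ) :
    IsPot (φ.comp θ) (ψ.comp (MonoidHom.toAdditive θ)) F := by
  intro γ x
  exact h (θ γ) x

end IsPot

/-- **Correspondences and potentials.** -/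
theorem _root_.Fermat.Agent.S41.IsCorr.isPot [Fintype ι] {φ₁ : Γ₁ →* G} {φ₂ : Γ₂ →* G} {α : ι → G}
    (h : IsCorr φ₁ φ₂ α) {ψ : Additive Γ₂ →+ A} {F : X → A} (hF : IsPot φ₂ ψ F) :
    IsPot φ₁ (h.corrHom ψ) (fun x => ∑ i, F (α i • x)) := by
  intro γ x
  simp only
  rw [h.corrHom_apply, ← Equiv.sum_comp (h.permEquiv γ) (fun i => F (α i • x)),
    ← Finset.sum_add_distrib]
  refine Finset.sum_congr rfl fun i _ => ?_
  rw [← mul_smul, h.spec γ i, mul_smul, IsCorr.permEquiv_apply, hF]

/-- **Hecke families and potentials.** -/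
theorem _root_.Fermat.Agent.Lib.HeckeHom.IsHeckeFamily.isPot [Fintype ι] {φ : Γ →* G} {α : ι → G}
    (h : IsHeckeFamily φ α) {ψ : Additive Γ →+ A} {F : X → A} (hF : IsPot φ ψ F) :
    IsPot φ (h.heckeHom ψ) (fun x => ∑ i, F (α i • x)) := by
  intro γ x
  simp only
  rw [h.heckeHom_apply, ← Equiv.sum_comp (h.permEquiv γ) (fun i => F (α i • x)),
    ← Finset.sum_add_distrib]
  refine Finset.sum_congr rfl fun i _ => ?_
  rw [← mul_smul, h.spec γ i, mul_smul, IsHeckeFamily.permEquiv_apply, hF]

/-- **Existence of potentials**: a homomorphism killing all stabilisers has a potential. -/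
theorem exists_isPot (φ : Γ →* G) (ψ : Additive Γ →+ A)
    (hψ : ∀ (γ : Γ) (x : X), φ γ • x = x → ψ (Additive.ofMul γ) = 0) :
    ∃ F : X → A, IsPot φ ψ F := by
  classical
  letI : MulAction Γ X := MulAction.compHom X φ
  have hsm : ∀ (γ : Γ) (x : X), γ • x = φ γ • x := fun _ _ => rfl
  -- a representative of each orbit
  let rep : X → X := fun x => (Quotient.mk (MulAction.orbitRel Γ X) x).out
  have hrep : ∀ x, ∃ γ : Γ, γ • rep x = x := by
    intro x
    have h1 : (MulAction.orbitRel Γ X).r (rep x) x := Quotient.exact (Quotient.out_eq _)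
    have h2 : x ∈ MulAction.orbit Γ (rep x) := by
      have := (MulAction.orbitRel Γ X).symm h1
      exact (MulAction.orbitRel_apply).1 this
    exact h2
  have hrepinv : ∀ (γ : Γ) (x : X), rep (γ • x) = rep x := by
    intro γ x
    have : Quotient.mk (MulAction.orbitRel Γ X) (γ • x) = Quotient.mk (MulAction.orbitRel Γ X) x :=
      Quotient.sound ((MulAction.orbitRel_apply).2 ⟨γ, rfl⟩)
    simp only [rep, this]
  choose g hg using hrep
  refine ⟨fun x => ψ (Additive.ofMul (g x)), fun γ x => ?_⟩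
  simp only
  rw [← hsm]
  -- `(g (γ • x))⁻¹ * γ * g x` fixes `rep x`
  have hfix : ((g (γ • x))⁻¹ * (γ * g x)) • rep x = rep x := by
    rw [mul_smul, mul_smul, hg x]
    have := hg (γ • x)
    rw [hrepinv] at this
    rw [inv_smul_eq_iff, this]
  have h0 := hψ _ _ hfix
  rw [ofMul_mul, ofMul_mul, ofMul_inv, map_add, map_add, map_neg] at h0
  have : ψ (Additive.ofMul (g (γ • x))) =
      ψ (Additive.ofMul γ) + ψ (Additive.ofMul (g x)) := by
    have h1 := congrArg (fun t => ψ (Additive.ofMul (g (γ • x))) + t) h0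
    simp only [add_neg_cancel_left, add_zero] at h1
    exact h1.symm
  rw [this, add_comm]

end Fermat.Agent.S41.LC
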