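import Fermat.Agent.S41.LC.PX

/-!
# S41, block LC: potentials of `res`, `tw`, `al`, `cores`, `T_ℓ`, `U_q`  (owner: helper188)
-/

set_option autoImplicit false

open Matrix.SpecialLinearGroup CongruenceSubgroup ModularForm
open scoped MatrixGroups OnePoint

namespace Fermat.Agent.S41.LC

open Fermat.Agent.Lib.HeckeHom

variable {X A : Type*} [MulAction (GL (Fin 2) ℝ) X] [AddCommGroup A] {N q : ℕ}

theorem isPot_res {ψ : Additive (Gamma0 N) →+ A} {F : X → A} (hF : IsPot (incl N) ψ F) :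
    IsPot (incl (N * q)) (res N q ψ) F := by
  have := (isCorr_res N q).isPot hF
  simp only [Finset.univ_unique, Finset.sum_singleton, one_smul] at this
  exact this

theorem isPot_tw {ψ : Additive (Gamma0 N) →+ A} {F : X → A} (hF : IsPot (incl N) ψ F) :
    IsPot (incl (N * q)) (tw N q ψ) (fun x => F (heckeDiagMatrix q • x)) := by
  have := (isCorr_tw N q).isPot hF
  simp only [Finset.univ_unique, Finset.sum_singleton] at this
  exact this

theorem isPot_al (hq : q.Prime) (h : Nat.Coprime q N) {ψ : Additive (Gamma0 (N * q)) →+ A}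
    {F : X → A} (hF : IsPot (incl (N * q)) ψ F) :
    IsPot (incl (N * q)) (al N q hq h ψ) (fun x => F (wMat N q h • x)) := by
  have := (isCorr_al N q hq h).isPot hF
  simp only [Finset.univ_unique, Finset.sum_singleton] at this
  exact this

theorem isPot_cores (hq : q.Prime) (h : Nat.Coprime q N) {ψ : Additive (Gamma0 (N * q)) →+ A}
    {F : X → A} (hF : IsPot (incl (N * q)) ψ F) :
    haveI : Fact q.Prime := ⟨hq⟩
    IsPot (incl N) (cores N q hq h ψ) (fun x => ∑ i, F (coresFam N q h i • x)) := by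
  have : Fact q.Prime := ⟨hq⟩
  exact (isCorr_cores N q hq h).isPot hF

theorem isPot_T {ℓ : ℕ} (hℓ : ℓ.Prime) (hℓN : ¬ ℓ ∣ N) {ψ : Additive (Gamma0 N) →+ A}
    {F : X → A} (hF : IsPot (incl N) ψ F) :
    haveI : Fact ℓ.Prime := ⟨hℓ⟩
    IsPot (incl N) (heckeHomT hℓ hℓN ψ) (fun x => ∑ k, F (repT ℓ k • x)) := by
  have : Fact ℓ.Prime := ⟨hℓ⟩
  exact (isHeckeFamily_T hℓN).isPot hF

theorem isPot_U [NeZero N] {r : ℕ} [NeZero r] (hrN : r ∣ N) {ψ : Additive (Gamma0 N) →+ A}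
    {F : X → A} (hF : IsPot (incl N) ψ F) :
    IsPot (incl N) (heckeHomU hrN ψ) (fun x => ∑ j, F (repU r j • x)) :=
  (isHeckeFamily_U hrN).isPot hF

/-- The way to prove an identity between `ℤ`-valued homomorphisms. -/
theorem eq_of_isPot {ψ₁ ψ₂ : Additive (Gamma0 N) →+ ℤ} {F₁ F₂ : PX → ℤ}
    (h₁ : IsPot (incl N) ψ₁ F₁) (h₂ : IsPot (incl N) ψ₂ F₂) (c : ℤ)
    (hc : ∀ x, F₂ x = F₁ x + c) : ψ₁ = ψ₂ :=
  h₁.eq_of_add_const h₂ c hc

end Fermat.Agent.S41.LC
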